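import Fermat.Agent.Pfister.CasselsPfister
import Mathlib.FieldTheory.IntermediateField.Adjoin.Basic
import Mathlib.FieldTheory.Tower

/-!
# Springer's theorem

An anisotropic diagonal form stays anisotropic in every extension of odd degree.
-/

set_option autoImplicit false

noncomputable section

open Polynomial IntermediateField

namespace FA.Pfister

variable {K : Type*} [Field K] {ι : Type*} [Fintype ι]

/-- A polynomial of odd degree has an irreducible factor of odd degree. -/
theorem exists_odd_irreducible_factor :
    ∀ (N : ℕ) (h : K[X]), h.natDegree ≤ N → Odd h.natDegree →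
      ∃ q, Irreducible q ∧ q ∣ h ∧ Odd q.natDegree
  | N, h, hN, ho => by
    have h0 : h ≠ 0 := fun e => by simp [e] at ho
    obtain ⟨q, hq, hqh⟩ := WfDvdMonoid.exists_irreducible_factor
      (not_isUnit_of_natDegree_pos h (by have := Nat.odd_iff.1 ho; omega)) h0
    rcases Nat.even_or_odd q.natDegree with he | hoq
    · obtain ⟨h', rfl⟩ := hqh
      have hq0 := hq.natDegree_pos
      rw [natDegree_mul hq.ne_zero (right_ne_zero_of_mul h0)] at ho hN
      have hN1 : 1 ≤ N := by omega
      obtain ⟨q', h1, h2, h3⟩ := exists_odd_irreducible_factor (N - 1) h' (by omega)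
        (by have := Nat.even_iff.1 he; have := Nat.odd_iff.1 ho; exact Nat.odd_iff.2 (by omega))
      exact ⟨q', h1, h2.mul_left q, h3⟩
    · exact ⟨q, hq, hqh, hoq⟩
  termination_by N => N
  decreasing_by omega

/-- An irreducible polynomial of odd degree dividing a value divides the arguments. -/
theorem Anisotropic.dvd_of_odd {a : ι → K} (ha : Anisotropic a) :
    ∀ (n : ℕ) (p : K[X]), Irreducible p → p.natDegree = n → Odd n → ∀ g : ι → K[X],
      p ∣ ∑ j, C (a j) * g j ^ 2 → ∀ j, p ∣ g j
  | n, p, hp, hn, hodd, g, hg => by
    classical
    -- arguments of degree below `n` vanish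
    have small : ∀ (D : ℕ), D < n → ∀ g : ι → K[X], (∀ j, (g j).natDegree ≤ D) →
        p ∣ ∑ j, C (a j) * g j ^ 2 → g = 0 := by
      intro D
      induction D using Nat.strong_induction_on with
      | _ D ih =>
        intro hD g hgD hdiv
        by_contra hg0
        obtain ⟨hQ, hdeg⟩ := ha.natDegree_eq hg0
        obtain ⟨h, hh⟩ := hdiv
        have hne : p ≠ 0 := hp.ne_zero
        have hh0 : h ≠ 0 := right_ne_zero_of_mul (hh ▸ hQ)
        have hle := natDegree_diag_le (a := a) hgD
        rw [hh, natDegree_mul hne hh0, hn] at hle
        -- the degree of the value is even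
        obtain ⟨j₀, hj₀⟩ : ∃ j, (∑ j, C (a j) * g j ^ 2).natDegree ≤ 2 * (g j).natDegree := by
          obtain ⟨j₁, -, hmax⟩ := Finset.univ.exists_max_image (fun j => (g j).natDegree)
            (let ⟨j, _⟩ := Function.ne_iff.1 hg0; ⟨j, Finset.mem_univ j⟩)
          exact ⟨j₁, natDegree_diag_le fun j => hmax j (Finset.mem_univ j)⟩
        have heq := le_antisymm hj₀ (hdeg j₀)
        rw [hh, natDegree_mul hne hh0, hn] at heq
        have hho : Odd h.natDegree := by
          have := Nat.odd_iff.1 hodd
          exact Nat.odd_iff.2 (by omega)
        obtain ⟨q, hq, hqh, hqo⟩ := exists_odd_irreducible_factor _ h le_rfl hho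
        have hqn : q.natDegree < n := by
          have := natDegree_le_of_dvd hqh hh0
          omega
        have hall := Anisotropic.dvd_of_odd ha q.natDegree q hq rfl hqo g
          (hh ▸ hqh.mul_left p)
        choose g' hg' using hall
        have hgeq : g = fun j => q * g' j := funext hg'
        subst hgeq
        have hq1 := hq.natDegree_pos
        obtain ⟨j₂, hj₂⟩ := Function.ne_iff.1 hg0
        have hD1 : q.natDegree ≤ D := (natDegree_le_of_dvd (dvd_mul_right q (g' j₂)) hj₂).trans
          (hgD j₂)
        have hg'0 : g' = 0 := by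
          refine ih (D - q.natDegree) (by omega) (by omega) g' (fun j => ?_) ?_
          · by_cases hj : g' j = 0
            · simp [hj]
            · have := hgD j
              rw [natDegree_mul hq.ne_zero hj] at this
              omega
          · refine (hp.prime.dvd_or_dvd (a := q ^ 2) ?_).resolve_left fun hd => ?_
            · rw [Finset.mul_sum]
              exact ⟨h, by rw [← hh]; exact Finset.sum_congr rfl fun j _ => by ring⟩
            · have := natDegree_le_of_dvd (hp.prime.dvd_of_dvd_pow hd) hq.ne_zero
              omega
        exact hj₂ (by rw [hg'0]; simp)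
    intro j
    rw [← EuclideanDomain.mod_eq_zero]
    refine congrFun (small (n - 1) (by have := hp.natDegree_pos; omega) (fun j => g j % p)
      (fun j => ?_) ?_) j
    · have := natDegree_mod_lt (g j) hp.natDegree_pos.ne'
      omega
    · have e : ∀ j, C (a j) * (g j % p) ^ 2 = C (a j) * g j ^ 2 +
          p * (C (a j) * (g j / p) * (p * (g j / p) - 2 * g j)) := fun j => by
        rw [show g j % p = g j - p * (g j / p) from
          eq_sub_of_add_eq' (EuclideanDomain.div_add_mod (g j) p)]
        ring
      simp only [e, Finset.sum_add_distrib, ← Finset.mul_sum]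
      exact hg.add (dvd_mul_right _ _)
  termination_by n => n

/-- **Springer's theorem**: anisotropy survives extensions of odd degree. -/
theorem Anisotropic.of_odd_finrank {L : Type*} [Field L] [Algebra K L] [FiniteDimensional K L]
    {a : ι → K} (ha : Anisotropic a) (hodd : Odd (Module.finrank K L)) :
    Anisotropic (fun j => algebraMap K L (a j)) := by
  have key : ∀ E : IntermediateField K L, Anisotropic (fun j => algebraMap K E (a j)) := by
    refine induction_on_adjoin _ ?_ fun E x hE => ?_
    · intro v hv
      set e := botEquiv K L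
      have h0 := congrArg e hv
      simp only [map_sum, map_mul, map_pow, map_zero, AlgEquiv.commutes, Algebra.algebraMap_self,
        RingHom.id_apply] at h0
      funext j
      exact e.injective (by simpa using congrFun (ha _ h0) j)
    · have hx : IsIntegral E x := .of_finite E x
      have hxo : Odd (minpoly E x).natDegree := by
        refine Odd.of_dvd_nat ?_ (minpoly.degree_dvd hx)
        exact Odd.of_dvd_nat hodd ⟨_, (Module.finrank_mul_finrank K E L).symm.trans (mul_comm _ _)⟩
      intro v hv
      have hmem : ∀ j, ∃ g : E[X], ((v j : L)) = aeval x g := fun j => by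
        obtain ⟨g, hg⟩ := (adjoin.powerBasis hx).exists_eq_aeval' ⟨(v j : L), (v j).2⟩
        refine ⟨g, ?_⟩
        have := congrArg ((↑) : E⟮x⟯ → L) hg
        simpa [← aeval_algHom_apply (IntermediateField.val E⟮x⟯)] using this
      choose g hg using hmem
      have hdvd : minpoly E x ∣ ∑ j, C (algebraMap K E (a j)) * g j ^ 2 := by
        refine minpoly.dvd E x ?_
        have := congrArg ((↑) : (E⟮x⟯.restrictScalars K) → L) hv
        simp only [map_sum, map_mul, map_pow, aeval_C, ← hg]
        simpa using this
      have hall := hE.dvd_of_odd _ _ (minpoly.irreducible hx) rfl hxo g hdvd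
      funext j
      refine Subtype.ext ?_
      obtain ⟨c, hc⟩ := hall j
      simp [hg, hc]
  intro v hv
  set e := (topEquiv : (⊤ : IntermediateField K L) ≃ₐ[K] L).symm
  have h0 := congrArg e hv
  simp only [map_sum, map_mul, map_pow, map_zero, AlgEquiv.commutes] at h0
  funext j
  exact e.injective (by simpa using congrFun (key ⊤ _ h0) j)

/-- Formally real fields stay so in extensions of odd degree. -/
theorem not_isSqSum_of_odd_finrank {L : Type*} [Field L] [Algebra K L] [FiniteDimensional K L]
    (hR : ∀ m, ¬ IsSqSum m (-1 : K)) (hodd : Odd (Module.finrank K L)) (m : ℕ) :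
    ¬ IsSqSum m (-1 : L) := by
  rintro ⟨x, hx⟩
  have := ((anisotropic_one (ι := Fin (m + 1)) hR).of_odd_finrank (L := L) hodd)
    (Fin.cons 1 x) (by simp [Fin.sum_univ_succ, hx])
  simpa using congrFun this 0

end FA.Pfister

end
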