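import Mathlib.LinearAlgebra.QuadraticForm.Prod
import Mathlib.LinearAlgebra.Reflection
import Mathlib.Tactic.FieldSimp
import Mathlib.Tactic.LinearCombination

/-!
# Witt's cancellation theorem

For `2 ≠ 0` reflections carry a vector to any other of the same nonzero value; so a summand `⟨a⟩`,
`a ≠ 0`, and hence a nondegenerate diagonal summand, cancels.
-/

set_option autoImplicit false

noncomputable section

open QuadraticMap

namespace FA.Pfister

variable {K : Type*} [Field K] {V V' W : Type*} [AddCommGroup V] [Module K V] [AddCommGroup V']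
  [Module K V'] [AddCommGroup W] [Module K W]

/-- The reflection in a vector of nonzero value, as an isometry. -/
def reflectionIsometry (Q : QuadraticForm K V) (u : V) (hu : Q u ≠ 0) : Q.IsometryEquiv Q where
  toLinearEquiv := Module.reflection (x := u) (f := (Q u)⁻¹ • Q.polarBilin u) (by
    rw [LinearMap.smul_apply, polarBilin_apply_apply, polar_self, smul_eq_mul, nsmul_eq_mul]
    field_simp
    norm_num)
  map_app' v := by
    show Q (Module.reflection _ v) = Q v
    rw [Module.reflection_apply, LinearMap.smul_apply, polarBilin_apply_apply, sub_eq_add_neg,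
      ← neg_smul, QuadraticMap.map_add (Q : V → K), QuadraticMap.map_smul, polar_smul_right,
      polar_comm Q v u]
    simp only [smul_eq_mul]
    field_simp
    ring

theorem reflectionIsometry_apply (Q : QuadraticForm K V) (u : V) (hu : Q u ≠ 0) (v : V) :
    reflectionIsometry Q u hu v = v - ((Q u)⁻¹ * polar Q u v) • u :=
  rfl

/-- **Isometries act transitively** on the vectors of a nonzero value. -/
theorem exists_isometry_apply_eq (h2 : (2 : K) ≠ 0) (Q : QuadraticForm K V) {w x : V}
    (h : Q w = Q x) (hx : Q x ≠ 0) : ∃ τ : Q.IsometryEquiv Q, τ w = x := by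
  by_cases hsub : Q (w - x) = 0
  · have hadd : Q (w + x) ≠ 0 := by
      intro e
      rw [sub_eq_add_neg, QuadraticMap.map_add (Q : V → K), QuadraticMap.map_neg,
        polar_neg_right, h] at hsub
      rw [QuadraticMap.map_add (Q : V → K), h] at e
      exact hx ((mul_eq_zero.1 (show (2 * 2 : K) * Q x = 0 by linear_combination hsub + e)
        ).resolve_left (mul_ne_zero h2 h2))
    refine ⟨(reflectionIsometry Q (w + x) hadd).trans
      { toLinearEquiv := LinearEquiv.neg K, map_app' := fun v => QuadraticMap.map_neg Q v }, ?_⟩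
    change -(reflectionIsometry Q (w + x) hadd w) = x
    rw [reflectionIsometry_apply]
    have e : polar Q (w + x) w = Q (w + x) := by
      rw [polar_add_left, polar_self, QuadraticMap.map_add (Q : V → K), polar_comm Q x w,
        nsmul_eq_mul, h]
      ring
    rw [e, inv_mul_cancel₀ hadd, one_smul]
    abel
  · refine ⟨reflectionIsometry Q (w - x) hsub, ?_⟩
    rw [reflectionIsometry_apply]
    have e : polar Q (w - x) w = Q (w - x) := by
      rw [polar_sub_left, polar_self, sub_eq_add_neg w x, QuadraticMap.map_add (Q : V → K),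
        QuadraticMap.map_neg, polar_neg_right, polar_comm Q x w, nsmul_eq_mul, h]
      ring
    rw [e, inv_mul_cancel₀ hsub, one_smul, sub_sub_cancel]

/-- An isometry of `⟨a⟩ ⊥ Q` and `⟨a⟩ ⊥ Q'` fixing `(1, 0)` keeps the orthogonal complements. -/
theorem fst_eq_zero_of_fixed (h2 : (2 : K) ≠ 0) {a : K} (ha : a ≠ 0) {Q : QuadraticForm K V}
    {Q' : QuadraticForm K V'} (f : ((a • QuadraticMap.sq).prod Q).IsometryEquiv
      ((a • QuadraticMap.sq).prod Q'))
    (hf : f (1, 0) = (1, 0)) (v : V) : (f (0, v)).1 = 0 := by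
  have h1 := f.map_app ((1, 0) + (0, v))
  have h0 := f.map_app (0, v)
  change _ = _ at h1 h0
  have e : f ((1, 0) + (0, v)) = (1, 0) + f (0, v) := by
    rw [← hf]
    exact map_add f.toLinearEquiv _ _
  rw [e] at h1
  simp only [QuadraticMap.prod_apply, Prod.mk_add_mk, Prod.fst_add, Prod.snd_add,
    _root_.smul_apply, QuadraticMap.sq_apply, smul_eq_mul, add_zero, zero_add] at h1 h0
  exact (mul_eq_zero.1 (show (2 * a) * (f (0, v)).1 = 0 by linear_combination h1 - h0)
    ).resolve_left (mul_ne_zero h2 ha)

/-- **Witt's cancellation** of a summand `⟨a⟩`. -/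
theorem witt_cancel_one (h2 : (2 : K) ≠ 0) {a : K} (ha : a ≠ 0) {Q : QuadraticForm K V}
    {Q' : QuadraticForm K V'}
    (h : Equivalent ((a • QuadraticMap.sq).prod Q) ((a • QuadraticMap.sq).prod Q')) :
    Equivalent Q Q' := by
  obtain ⟨e⟩ := h
  have hval : ((a • QuadraticMap.sq).prod Q') (1, 0) = a := by simp
  obtain ⟨τ, hτ⟩ := exists_isometry_apply_eq h2 _ (w := e (1, 0)) (x := (1, 0))
    (by rw [e.map_app, hval]; simp) (by rw [hval]; exact ha)
  set f := e.trans τ
  have hf : f (1, 0) = (1, 0) := hτ
  have hf' : f.symm (1, 0) = (1, 0) := by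
    conv_lhs => rw [← hf]
    exact f.toLinearEquiv.symm_apply_apply _
  have hz := fst_eq_zero_of_fixed h2 ha f hf
  have hz' := fst_eq_zero_of_fixed h2 ha f.symm hf'
  refine ⟨{
    toFun := fun v => (f (0, v)).2
    map_add' := fun u v => by
      rw [show ((0 : K), u + v) = (0, u) + (0, v) by simp]
      exact congrArg Prod.snd (map_add f.toLinearEquiv _ _)
    map_smul' := fun c v => by
      rw [show ((0 : K), c • v) = c • ((0 : K), v) by simp]
      exact congrArg Prod.snd (map_smul f.toLinearEquiv _ _)
    invFun := fun v => (f.symm (0, v)).2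
    left_inv := fun v => by
      show (f.symm (0, (f (0, v)).2)).2 = v
      rw [show ((0 : K), (f (0, v)).2) = f (0, v) from Prod.ext (hz v).symm rfl]
      exact congrArg Prod.snd (f.toLinearEquiv.symm_apply_apply _)
    right_inv := fun v => by
      show (f (0, (f.symm (0, v)).2)).2 = v
      rw [show ((0 : K), (f.symm (0, v)).2) = f.symm (0, v) from Prod.ext (hz' v).symm rfl]
      exact congrArg Prod.snd (f.toLinearEquiv.apply_symm_apply _)
    map_app' := fun v => ?_ }⟩
  have h0 := f.map_app (0, v)
  simp only [QuadraticMap.prod_apply, hz v, _root_.smul_apply, QuadraticMap.sq_apply,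
    mul_zero, smul_zero, zero_add] at h0
  exact h0

/-- `⟨w_0, …, w_n⟩ = ⟨w_0⟩ ⊥ ⟨w_1, …, w_n⟩`. -/
def consIsometry {n : ℕ} (w : Fin (n + 1) → K) :
    (weightedSumSquares K w).IsometryEquiv
      ((w 0 • QuadraticMap.sq).prod (weightedSumSquares K (Fin.tail w))) where
  toFun x := (x 0, Fin.tail x)
  map_add' _ _ := rfl
  map_smul' _ _ := rfl
  invFun p := Fin.cons p.1 p.2
  left_inv x := Fin.cons_self_tail x
  right_inv p := by simp
  map_app' x := by simp [Fin.sum_univ_succ, Fin.tail]

/-- Products of forms are associative. -/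
def assocIsometry (Q : QuadraticForm K V) (Q' : QuadraticForm K V') (Q'' : QuadraticForm K W) :
    ((Q.prod Q').prod Q'').IsometryEquiv (Q.prod (Q'.prod Q'')) where
  toLinearEquiv := LinearEquiv.prodAssoc K V V' W
  map_app' x := by simp [add_assoc]

/-- The empty sum is neutral. -/
def zeroIsometry (w : Fin 0 → K) (Q : QuadraticForm K V) :
    ((weightedSumSquares K w).prod Q).IsometryEquiv Q where
  toFun p := p.2
  map_add' _ _ := rfl
  map_smul' _ _ := rfl
  invFun v := (0, v)
  left_inv p := Prod.ext (Subsingleton.elim _ _) rfl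
  right_inv _ := rfl
  map_app' x := by simp

/-- **Witt's cancellation theorem** for a nondegenerate diagonal summand. -/
theorem witt_cancel (h2 : (2 : K) ≠ 0) :
    ∀ {n : ℕ} {w : Fin n → K}, (∀ j, w j ≠ 0) → ∀ {Q : QuadraticForm K V} {Q' : QuadraticForm K V'},
      Equivalent ((weightedSumSquares K w).prod Q) ((weightedSumSquares K w).prod Q') →
        Equivalent Q Q'
  | 0, w, _, Q, Q', ⟨e⟩ => ⟨((zeroIsometry w Q).symm.trans e).trans (zeroIsometry w Q')⟩
  | n + 1, w, hw, Q, Q', ⟨e⟩ => by
    refine witt_cancel h2 (n := n) (w := Fin.tail w) (fun j => hw j.succ) ?_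
    exact witt_cancel_one h2 (hw 0)
      ⟨((((consIsometry w).prod (.refl Q)).trans (assocIsometry _ _ Q)).symm.trans e).trans
        (((consIsometry w).prod (.refl Q')).trans (assocIsometry _ _ Q'))⟩

end FA.Pfister

end
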