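import Fermat.Agent.Pfister.Universal
import Fermat.Agent.Pfister.Witt
import Mathlib.LinearAlgebra.QuadraticForm.IsometryEquiv

/-!
# Diagonal forms over `C_1` fields

They are classified by the dimension and the discriminant.
-/

set_option autoImplicit false

noncomputable section

open QuadraticMap
open QuadraticForm (weightedSumSquaresCongr isometryEquivWeightedSumSquaresWeightedSumSquares)

namespace FA.Pfister

variable {K : Type*} [Field K]

/-- A binary form that takes the value `1` is `⟨1, a b⟩`. -/
def binaryIsometry {a b x y : K} (h : a * x ^ 2 + b * y ^ 2 = 1) :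
    (weightedSumSquares K ![1, a * b]).IsometryEquiv (weightedSumSquares K ![a, b]) where
  toFun p := ![x * p 0 - b * y * p 1, y * p 0 + a * x * p 1]
  map_add' p q := by ext j; fin_cases j <;> simp <;> ring
  map_smul' c p := by ext j; fin_cases j <;> simp <;> ring
  invFun p := ![a * x * p 0 + b * y * p 1, -y * p 0 + x * p 1]
  left_inv p := by
    ext j
    fin_cases j
    · simp
      linear_combination p 0 * h
    · simp
      linear_combination p 1 * h
  right_inv p := by
    ext j
    fin_cases j
    · simp
      linear_combination p 0 * h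
    · simp
      linear_combination p 1 * h
  map_app' p := by
    simp [Fin.sum_univ_two]
    linear_combination (p 0 ^ 2 + a * b * p 1 ^ 2) * h

/-- The normal form `⟨1, …, 1, d⟩`. -/
def normalCoeff (n : ℕ) (d : K) : Fin (n + 1) → K := Fin.snoc (fun _ => 1) d

theorem normalCoeff_succ (n : ℕ) (d : K) :
    normalCoeff (n + 1) d = Fin.cons 1 (normalCoeff n d) := by
  rw [normalCoeff, normalCoeff, Fin.cons_snoc_eq_snoc_cons]
  congr
  exact funext fun j => by cases j using Fin.cases <;> simp

/-- **Normal form**: over a `C_1` field a nondegenerate diagonal form is `⟨1, …, 1, d⟩`. -/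
theorem equivalent_normal (hK : FA.Tsen.IsC 1 K) (h2 : (2 : K) ≠ 0) :
    ∀ {n : ℕ} {w : Fin (n + 1) → K}, (∀ j, w j ≠ 0) →
      Equivalent (weightedSumSquares K w) (weightedSumSquares K (normalCoeff n (∏ j, w j)))
  | 0, w, _ => ⟨weightedSumSquaresCongr (funext fun j => by
      fin_cases j; simp [normalCoeff, Fin.snoc])⟩
  | n + 1, w, hw => by
    obtain ⟨y, hy⟩ := diagonal_value hK h2 (a := ![w 0, w 1])
      (fun j => by fin_cases j <;> simp [hw]) (by simp) 1
    simp only [Fin.sum_univ_two, Matrix.cons_val_zero, Matrix.cons_val_one] at hy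
    set w' : Fin (n + 1) → K := Fin.cons (w 0 * w 1) (Fin.tail (Fin.tail w)) with hw'
    have hw'0 : ∀ j, w' j ≠ 0 := fun j => by
      cases j using Fin.cases with
      | zero => simpa [hw'] using mul_ne_zero (hw 0) (hw 1)
      | succ j => simpa [hw', Fin.tail] using hw _
    have hprod : ∏ j, w' j = ∏ j, w j := by
      rw [Fin.prod_univ_succ, Fin.prod_univ_succ (f := w), Fin.prod_univ_succ (fun j => w j.succ)]
      simp [hw', Fin.tail, mul_assoc]
    obtain ⟨e⟩ := equivalent_normal hK h2 hw'0
    -- `w = ⟨w 0, w 1⟩ ⊥ rest`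
    let τ : ∀ u : Fin (n + 2) → K, (weightedSumSquares K u).IsometryEquiv
        ((weightedSumSquares K ![u 0, u 1]).prod (weightedSumSquares K (Fin.tail (Fin.tail u)))) :=
      fun u =>
      { toFun := fun x => (![x 0, x 1], Fin.tail (Fin.tail x))
        map_add' := fun x y => by ext j <;> [(fin_cases j <;> simp); simp [Fin.tail]]
        map_smul' := fun c x => by ext j <;> [(fin_cases j <;> simp); simp [Fin.tail]]
        invFun := fun p => Fin.cons (p.1 0) (Fin.cons (p.1 1) p.2)
        left_inv := fun x => by
          ext j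
          refine Fin.cases ?_ (fun i => ?_) j
          · simp
          · refine Fin.cases ?_ (fun k => ?_) i <;> simp [Fin.tail]
        right_inv := fun p => by
          ext j
          · fin_cases j <;> simp
          · simp [Fin.tail]
        map_app' := fun x => by
          simp [Fin.sum_univ_succ, Fin.tail, add_assoc] }
    let w₂ : Fin (n + 2) → K := Fin.cons 1 w'
    have h12 : Equivalent (weightedSumSquares K w) (weightedSumSquares K w₂) := by
      have e2 : Equivalent (weightedSumSquares K ![w₂ 0, w₂ 1])
          (weightedSumSquares K ![w 0, w 1]) :=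
        ⟨(weightedSumSquaresCongr (by simp [w₂, hw'] : ![w₂ 0, w₂ 1] = ![1, w 0 * w 1])).trans
          (binaryIsometry hy)⟩
      have e3 : Equivalent (weightedSumSquares K (Fin.tail (Fin.tail w₂)))
          (weightedSumSquares K (Fin.tail (Fin.tail w))) :=
        ⟨weightedSumSquaresCongr (by simp [w₂, hw'])⟩
      obtain ⟨e4⟩ := e2.prod e3
      exact ⟨(((τ w₂).trans e4).trans (τ w).symm).symm⟩
    obtain ⟨f⟩ := h12
    refine ⟨f.trans (((consIsometry w₂).trans ?_).trans
      (consIsometry (normalCoeff (n + 1) (∏ j, w j))).symm)⟩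
    refine IsometryEquiv.prod ?_ ?_
    · rw [normalCoeff_succ]
      exact .refl _
    · rw [normalCoeff_succ]
      simp only [w₂, Fin.tail_cons]
      rw [← hprod]
      exact e

theorem toMatrix'_weightedSumSquares {ι : Type*} [Fintype ι] [DecidableEq ι] [Invertible (2 : K)]
    (w : ι → K) : QuadraticForm.toMatrix' (weightedSumSquares K w) = Matrix.diagonal w := by
  ext i j
  rw [QuadraticForm.toMatrix', LinearMap.toMatrix₂'_apply, associated_apply]
  rcases eq_or_ne i j with rfl | hij
  · rw [Matrix.diagonal_apply_eq]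
    simp [Pi.single_apply, mul_add, ite_add_ite, Finset.sum_ite_eq']
    field_simp [Invertible.ne_zero (2 : K)]
    ring
  · rw [Matrix.diagonal_apply_ne _ hij]
    have : ∀ k, w k * ((Pi.single i (1 : K) + Pi.single j (1 : K) : ι → K) k *
        (Pi.single i (1 : K) + Pi.single j (1 : K) : ι → K) k) =
        w k * ((Pi.single i (1 : K) : ι → K) k * (Pi.single i (1 : K) : ι → K) k) +
          w k * ((Pi.single j (1 : K) : ι → K) k * (Pi.single j (1 : K) : ι → K) k) := fun k => by
      rcases eq_or_ne k i with rfl | hki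
      · simp [Pi.single_eq_of_ne hij]
      · simp [Pi.single_eq_of_ne hki]
    simp only [weightedSumSquares_apply, smul_eq_mul, this, Finset.sum_add_distrib]
    simp

/-- The discriminants of isometric diagonal forms differ by a square. -/
theorem disc_eq_of_equivalent (h2 : (2 : K) ≠ 0) {n : ℕ} {w w' : Fin n → K}
    (h : Equivalent (weightedSumSquares K w) (weightedSumSquares K w')) :
    ∃ c : K, c ≠ 0 ∧ ∏ j, w j = c ^ 2 * ∏ j, w' j := by
  let : Invertible (2 : K) := invertibleOfNonzero h2
  obtain ⟨e⟩ := h
  refine ⟨(LinearMap.toMatrix' e.toLinearEquiv.toLinearMap).det, ?_, ?_⟩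
  · rw [LinearMap.det_toMatrix']
    exact (LinearEquiv.isUnit_det' e.toLinearEquiv).ne_zero
  · have hc : (weightedSumSquares K w').comp e.toLinearEquiv.toLinearMap = weightedSumSquares K w :=
      QuadraticMap.ext fun x => e.map_app x
    have := QuadraticForm.discr'_comp (Q := weightedSumSquares K w') e.toLinearEquiv.toLinearMap
    rw [hc, QuadraticForm.discr', QuadraticForm.discr', toMatrix'_weightedSumSquares w,
      toMatrix'_weightedSumSquares w', Matrix.det_diagonal, Matrix.det_diagonal] at this
    rw [this, _root_.sq]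

/-- **Classification over `C_1` fields** by dimension and discriminant. -/
theorem equivalent_iff_disc (hK : FA.Tsen.IsC 1 K) (h2 : (2 : K) ≠ 0) {n : ℕ}
    {w w' : Fin n → K} (hw : ∀ j, w j ≠ 0) (hw' : ∀ j, w' j ≠ 0) :
    Equivalent (weightedSumSquares K w) (weightedSumSquares K w') ↔
      ∃ c : K, c ≠ 0 ∧ ∏ j, w j = c ^ 2 * ∏ j, w' j := by
  refine ⟨disc_eq_of_equivalent h2, fun ⟨c, hc, h⟩ => ?_⟩
  rcases n with _ | n
  · exact ⟨weightedSumSquaresCongr (funext fun j => j.elim0)⟩
  obtain ⟨e⟩ := equivalent_normal hK h2 hw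
  obtain ⟨e'⟩ := equivalent_normal hK h2 hw'
  refine ⟨e.trans (IsometryEquiv.trans ?_ e'.symm)⟩
  refine isometryEquivWeightedSumSquaresWeightedSumSquares
    (Fin.snoc (fun _ => 1) (Units.mk0 c hc)) fun j => ?_
  refine Fin.lastCases ?_ (fun i => ?_) j
  · simp [normalCoeff, h, mul_comm]
  · simp [normalCoeff]

end FA.Pfister

end
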