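import Fermat.Agent.Pfister.Universal
import Mathlib.Algebra.Ring.SumsOfSquares
import Mathlib.FieldTheory.KummerPolynomial
import Mathlib.FieldTheory.RatFunc.AsPolynomial
import Mathlib.RingTheory.AdjoinRoot
import Mathlib.Analysis.Complex.Polynomial.Basic

/-!
# Two squares over function fields of real curves

If `L(√-1)` is `C_1`, every sum of squares in `L` is a sum of two squares: for `b = w² + c` write
the sum of two squares `c` as `u² - b v²`, so that `b (1 + v²) = w² + u²`. Finite extensions `L`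
of `ℝ(t)` qualify by Tsen's theorem for `ℂ(t)`.
-/

set_option autoImplicit false

noncomputable section

open Polynomial

namespace FA.Pfister

variable {F : Type*} [Field F]

/-- `F(√-1)`. -/
abbrev Gauss (F : Type*) [Field F] : Type _ := AdjoinRoot (X ^ 2 + 1 : F[X])

theorem natDegree_gauss : (X ^ 2 + 1 : F[X]).natDegree = 2 := by
  rw [← map_one (C : F →+* F[X]), natDegree_X_pow_add_C]

theorem monic_gauss : (X ^ 2 + 1 : F[X]).Monic := by
  rw [← map_one (C : F →+* F[X])]
  exact monic_X_pow_add_C 1 two_ne_zero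

theorem root_sq : (AdjoinRoot.root (X ^ 2 + 1 : F[X])) ^ 2 = -1 := by
  have h := AdjoinRoot.eval₂_root (X ^ 2 + 1 : F[X])
  simp only [eval₂_add, eval₂_X_pow, eval₂_one] at h
  linear_combination h

theorem irreducible_gauss (h : ¬ IsSquare (-1 : F)) : Irreducible (X ^ 2 + 1 : F[X]) := by
  have := X_pow_sub_C_irreducible_of_prime Nat.prime_two (a := (-1 : F))
    fun b hb => h ⟨b, by rw [← hb]; ring⟩
  simpa using this

theorem exists_coords (z : Gauss F) :
    ∃ a b : F, z = AdjoinRoot.of _ a + AdjoinRoot.of _ b * AdjoinRoot.root _ := by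
  obtain ⟨p, rfl⟩ := AdjoinRoot.mk_surjective (g := (X ^ 2 + 1 : F[X])) z
  set r := p %ₘ (X ^ 2 + 1) with hr
  have hdeg : r.natDegree ≤ 1 := by
    have := natDegree_modByMonic_lt p monic_gauss (by
      intro h
      have := congrArg natDegree h
      rw [natDegree_gauss, natDegree_one] at this
      omega)
    rw [natDegree_gauss] at this
    rw [hr]
    omega
  refine ⟨r.coeff 0, r.coeff 1, ?_⟩
  conv_lhs => rw [← modByMonic_add_div p (X ^ 2 + 1), map_add, map_mul, AdjoinRoot.mk_self,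
    zero_mul, add_zero, ← hr, eq_X_add_C_of_natDegree_le_one hdeg]
  rw [map_add, map_mul, AdjoinRoot.mk_C, AdjoinRoot.mk_C, AdjoinRoot.mk_X, add_comm]

theorem coords_eq_zero (h : ¬ IsSquare (-1 : F)) {a b : F}
    (e : AdjoinRoot.of (X ^ 2 + 1 : F[X]) a + AdjoinRoot.of _ b * AdjoinRoot.root _ = 0) :
    a = 0 ∧ b = 0 := by
  have := Fact.mk (irreducible_gauss h)
  have e2 : a ^ 2 + b ^ 2 = 0 := (AdjoinRoot.of (X ^ 2 + 1 : F[X])).injective (by
    rw [map_zero, map_add, map_pow, map_pow]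
    linear_combination (AdjoinRoot.of (X ^ 2 + 1 : F[X]) a -
      AdjoinRoot.of _ b * AdjoinRoot.root _) * e +
      (AdjoinRoot.of (X ^ 2 + 1 : F[X]) b) ^ 2 * root_sq (F := F))
  have hb : b = 0 := by_contra fun hb => h ⟨a / b, by field_simp; linear_combination -e2⟩
  subst hb
  exact ⟨by simpa using e2, rfl⟩

/-- **Every sum of squares is a sum of two squares** if `F(√-1)` is `C_1`. -/
theorem isSqSum_two_of_isSumSq [CharZero F] (h : ¬ IsSquare (-1 : F))
    (hC : letI := Fact.mk (irreducible_gauss h); FA.Tsen.IsC 1 (Gauss F))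
    {s : F} (hs : IsSumSq s) : IsSqSum 2 s := by
  have := Fact.mk (irreducible_gauss h)
  induction hs with
  | zero => exact ⟨fun _ => 0, by simp⟩
  | @sq_add w c hc ih =>
    obtain ⟨pq, hpq⟩ := ih
    rw [Fin.sum_univ_two] at hpq
    rcases eq_or_ne (w * w + c) 0 with hb | hb
    · exact ⟨fun _ => 0, by simp [hb]⟩
    set b := w * w + c with hbdef
    have hof : AdjoinRoot.of (X ^ 2 + 1 : F[X]) b ≠ 0 := by
      rw [ne_eq, map_eq_zero]
      exact hb
    obtain ⟨y, hy⟩ := diagonal_value hC (σ := Fin 2)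
      (by
        rw [← map_ofNat (AdjoinRoot.of (X ^ 2 + 1 : F[X])) 2, ne_eq, map_eq_zero]
        exact two_ne_zero)
      (a := ![1, -AdjoinRoot.of (X ^ 2 + 1 : F[X]) b])
      (fun j => by fin_cases j <;> simp [hof])
      (by simp) (AdjoinRoot.of _ (pq 0) + AdjoinRoot.of _ (pq 1) * AdjoinRoot.root _)
    simp only [Fin.sum_univ_two, Matrix.cons_val_zero, Matrix.cons_val_one, one_mul] at hy
    obtain ⟨x₁, x₂, hX⟩ := exists_coords (y 0)
    obtain ⟨y₁, y₂, hY⟩ := exists_coords (y 1)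
    rw [hX, hY] at hy
    have key : (AdjoinRoot.of (X ^ 2 + 1 : F[X])) (x₁ ^ 2 - x₂ ^ 2 - b * (y₁ ^ 2 - y₂ ^ 2) - pq 0)
        + AdjoinRoot.of _ (2 * (x₁ * x₂ - b * (y₁ * y₂)) - pq 1) * AdjoinRoot.root _ = 0 := by
      simp only [map_sub, map_mul, map_pow, map_ofNat]
      linear_combination hy + (-(AdjoinRoot.of (X ^ 2 + 1 : F[X]) x₂) ^ 2 +
        AdjoinRoot.of (X ^ 2 + 1 : F[X]) b * (AdjoinRoot.of (X ^ 2 + 1 : F[X]) y₂) ^ 2) *
        root_sq (F := F)
    obtain ⟨e₁, e₂⟩ := coords_eq_zero h key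
    set u := x₁ ^ 2 + x₂ ^ 2 + b * (y₁ ^ 2 + y₂ ^ 2)
    set v := 2 * (x₁ * y₁ + x₂ * y₂)
    have hc' : c = u ^ 2 - b * v ^ 2 := by
      rw [← hpq, ← sub_eq_zero.1 e₁, ← sub_eq_zero.1 e₂]
      ring
    have hv : 1 + v ^ 2 ≠ 0 := fun e => h ⟨v, by linear_combination -e⟩
    refine ⟨![(w - u * v) / (1 + v ^ 2), (u + w * v) / (1 + v ^ 2)], ?_⟩
    simp only [Fin.sum_univ_two, Matrix.cons_val_zero, Matrix.cons_val_one]
    field_simp
    linear_combination -(1 + v ^ 2) * hbdef - (1 + v ^ 2) * hc'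

theorem isC_gauss_ratFunc_real (h : ¬ IsSquare (-1 : RatFunc ℝ)) :
    letI := Fact.mk (irreducible_gauss h)
    FA.Tsen.IsC 1 (Gauss (RatFunc ℝ)) := by
  have := Fact.mk (irreducible_gauss h)
  have hinj : Function.Injective ((algebraMap ℂ[X] (RatFunc ℂ)).comp
      (mapRingHom (algebraMap ℝ ℂ))) :=
    (IsFractionRing.injective ℂ[X] (RatFunc ℂ)).comp
      (Polynomial.map_injective _ (algebraMap ℝ ℂ).injective)
  set ι : RatFunc ℝ →+* RatFunc ℂ := IsFractionRing.lift hinj
  have hI : ((X ^ 2 + 1 : (RatFunc ℝ)[X])).eval₂ ι (algebraMap ℂ[X] (RatFunc ℂ) (C Complex.I)) =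
      0 := by
    rw [eval₂_add, eval₂_X_pow, eval₂_one, ← map_pow, ← C_pow, Complex.I_sq]
    simp
  set ψ : Gauss (RatFunc ℝ) →+* RatFunc ℂ := AdjoinRoot.lift ι _ hI
  have hpoly : ∀ p : ℂ[X], algebraMap ℂ[X] (RatFunc ℂ) p ∈ ψ.range := fun p => by
    induction p using Polynomial.induction_on' with
    | add p q hp hq => rw [map_add]; exact add_mem hp hq
    | monomial n a =>
      have hR : ∀ q : ℝ[X], algebraMap ℂ[X] (RatFunc ℂ) (q.map (algebraMap ℝ ℂ)) ∈ ψ.range :=
        fun q => ⟨AdjoinRoot.of _ (algebraMap ℝ[X] (RatFunc ℝ) q), by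
          simp [ψ, ι, AdjoinRoot.lift_of]⟩
      rw [← C_mul_X_pow_eq_monomial, ← Complex.re_add_im a, map_add C, map_mul C, add_mul, map_add]
      refine add_mem ?_ ?_
      · have := hR (C a.re * X ^ n)
        rwa [Polynomial.map_mul, Polynomial.map_pow, map_C, map_X] at this
      · rw [mul_right_comm, map_mul]
        refine mul_mem ?_ ⟨AdjoinRoot.root _, by simp [ψ, AdjoinRoot.lift_root]⟩
        have := hR (C a.im * X ^ n)
        rwa [Polynomial.map_mul, Polynomial.map_pow, map_C, map_X] at this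
  have hsurj : Function.Surjective ψ := fun z => by
    induction z using RatFunc.induction_on with
    | f p q hq =>
      obtain ⟨a, ha⟩ := hpoly p
      obtain ⟨b, hb⟩ := hpoly q
      exact ⟨a / b, by rw [map_div₀, ha, hb]⟩
  exact (FA.Tsen.isC_zero ℂ).ratFunc.of_ringEquiv
    (RingEquiv.ofBijective ψ ⟨ψ.injective, hsurj⟩).symm

/-- `C_1` passes from `F(√-1)` to `L(√-1)` for a finite extension `L` of `F`. -/
theorem isC_gauss_extension {L : Type*} [Field L] [Algebra F L] [FiniteDimensional F L] {i : ℕ}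
    (hF : ¬ IsSquare (-1 : F)) (hL : ¬ IsSquare (-1 : L))
    (hC : letI := Fact.mk (irreducible_gauss hF); FA.Tsen.IsC i (Gauss F)) :
    letI := Fact.mk (irreducible_gauss hL)
    FA.Tsen.IsC i (Gauss L) := by
  have := Fact.mk (irreducible_gauss hF)
  have := Fact.mk (irreducible_gauss hL)
  have hr : (X ^ 2 + 1 : F[X]).eval₂ ((AdjoinRoot.of (X ^ 2 + 1 : L[X])).comp (algebraMap F L))
      (AdjoinRoot.root _) = 0 := by
    rw [eval₂_add, eval₂_X_pow, eval₂_one, root_sq]
    ring
  let : Algebra (Gauss F) (Gauss L) := (AdjoinRoot.lift _ _ hr).toAlgebra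
  have : IsScalarTower F (Gauss F) (Gauss L) := IsScalarTower.of_algebraMap_eq fun a => by
    rw [RingHom.algebraMap_toAlgebra]
    exact (AdjoinRoot.lift_of hr).symm
  have : Module.Finite L (Gauss L) := monic_gauss.finite_adjoinRoot
  have : Module.Finite F (Gauss L) := Module.Finite.trans L _
  have : Module.Finite (Gauss F) (Gauss L) := Module.Finite.of_restrictScalars_finite F _ _
  exact hC.finite_extension

theorem not_isSquare_neg_one_ratFunc_real : ¬ IsSquare (-1 : RatFunc ℝ) := by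
  rintro ⟨s, hs⟩
  have e : RatFunc.num s * RatFunc.num s + RatFunc.denom s * RatFunc.denom s = 0 := by
    refine IsFractionRing.injective ℝ[X] (RatFunc ℝ) ?_
    have hd : algebraMap ℝ[X] (RatFunc ℝ) (RatFunc.denom s) ≠ 0 := fun e =>
      RatFunc.denom_ne_zero s
        (IsFractionRing.injective ℝ[X] (RatFunc ℝ) (e.trans (map_zero _).symm))
    rw [← RatFunc.num_div_denom s] at hs
    field_simp at hs
    rw [map_add, map_mul, map_mul, map_zero]
    linear_combination -hs
  refine RatFunc.denom_ne_zero s (Polynomial.funext fun t => ?_)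
  have h := congrArg (eval t) e
  simp only [eval_add, eval_mul, eval_zero] at h ⊢
  nlinarith [mul_self_nonneg ((RatFunc.num s).eval t), mul_self_nonneg ((RatFunc.denom s).eval t)]

end FA.Pfister

end
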