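import Fermat.Agent.Pfister.Round
import Mathlib.Algebra.Polynomial.Degree.Lemmas
import Mathlib.Algebra.Polynomial.FieldDivision
import Mathlib.FieldTheory.RatFunc.AsPolynomial

/-!
# The theorem of Cassels and Pfister

A diagonal form that represents a polynomial over `K(t)` represents it over `K[t]`. So, over a
formally real `K`, `t² + d` is a sum of `m + 1` squares in `K(t)` only if `d` is one of `m`.
-/

set_option autoImplicit false

noncomputable section

open Polynomial

namespace FA.Pfister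

variable {K : Type*} [Field K] {ι : Type*} [Fintype ι]

/-- The diagonal form with coefficients `a` has only the trivial zero. -/
def Anisotropic (a : ι → K) : Prop := ∀ x : ι → K, ∑ j, a j * x j ^ 2 = 0 → x = 0

theorem coeff_two_mul_sum {a : ι → K} {r : ι → K[X]} {D : ℕ} (hr : ∀ j, (r j).natDegree ≤ D) :
    (∑ j, C (a j) * r j ^ 2).coeff (2 * D) = ∑ j, a j * (r j).coeff D ^ 2 := by
  rw [finsetSum_coeff]
  refine Finset.sum_congr rfl fun j _ => ?_
  rw [coeff_C_mul, sq, two_mul, coeff_mul_add_eq_of_natDegree_le (hr j) (hr j), sq]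

theorem natDegree_diag_le {a : ι → K} {r : ι → K[X]} {D : ℕ} (hr : ∀ j, (r j).natDegree ≤ D) :
    (∑ j, C (a j) * r j ^ 2).natDegree ≤ 2 * D :=
  natDegree_sum_le_of_forall_le _ _ fun j _ => (natDegree_C_mul_le _ _).trans
    (natDegree_pow_le.trans (Nat.mul_le_mul_left 2 (hr j)))

/-- For an anisotropic form the degree of a value is twice that of the argument. -/
theorem Anisotropic.natDegree_eq {a : ι → K} (ha : Anisotropic a) {r : ι → K[X]} (hr : r ≠ 0) :
    ∑ j, C (a j) * r j ^ 2 ≠ 0 ∧
      ∀ j, 2 * (r j).natDegree ≤ (∑ j, C (a j) * r j ^ 2).natDegree := by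
  classical
  obtain ⟨j₀, hj₀⟩ := Function.ne_iff.1 hr
  obtain ⟨j₁, hj₁, hmax⟩ := (Finset.univ.filter fun j => r j ≠ 0).exists_max_image
    (fun j => (r j).natDegree) ⟨j₀, by simpa using hj₀⟩
  have hle : ∀ j, (r j).natDegree ≤ (r j₁).natDegree := fun j => by
    by_cases h : r j = 0
    · simp [h]
    · exact hmax j (by simpa using h)
  have hc : (∑ j, C (a j) * r j ^ 2).coeff (2 * (r j₁).natDegree) ≠ 0 := by
    rw [coeff_two_mul_sum hle]
    intro e
    exact leadingCoeff_ne_zero.2 (by simpa using hj₁ : r j₁ ≠ 0) (congrFun (ha _ e) j₁)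
  exact ⟨fun e => hc (by rw [e, coeff_zero]),
    fun j => le_trans (Nat.mul_le_mul_left 2 (hle j)) (le_natDegree_of_ne_zero hc)⟩

/-- **Cassels–Pfister** for anisotropic forms: descent on the denominator. -/
theorem Anisotropic.cassels_pfister {a : ι → K} (ha : Anisotropic a) {f : K[X]} :
    ∀ (D : ℕ) (u : ι → K[X]) (w : K[X]), w ≠ 0 → w.natDegree ≤ D →
      ∑ j, C (a j) * u j ^ 2 = f * w ^ 2 → ∃ v : ι → K[X], ∑ j, C (a j) * v j ^ 2 = f
  | D, u, w, hw, hD, h => by
    rcases Nat.eq_zero_or_pos w.natDegree with hw0 | hpos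
    · obtain ⟨c, rfl⟩ : ∃ c, w = C c := ⟨_, eq_C_of_natDegree_eq_zero hw0⟩
      have hc : c ≠ 0 := fun e => hw (by rw [e, map_zero])
      refine ⟨fun j => C c⁻¹ * u j, ?_⟩
      calc ∑ j, C (a j) * (C c⁻¹ * u j) ^ 2 = C c⁻¹ ^ 2 * ∑ j, C (a j) * u j ^ 2 := by
            rw [Finset.mul_sum]; exact Finset.sum_congr rfl fun j _ => by ring
        _ = f * (C c⁻¹ * C c) ^ 2 := by rw [h]; ring
        _ = f := by rw [← map_mul, inv_mul_cancel₀ hc, map_one, one_pow, mul_one]
    · set v : ι → K[X] := fun j => u j / w with hv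
      set r : ι → K[X] := fun j => u j % w with hr
      have hdiv : ∀ j, u j = w * v j + r j := fun j => (EuclideanDomain.div_add_mod _ _).symm
      set Q := ∑ j, C (a j) * v j ^ 2 with hQ
      set B := ∑ j, C (a j) * (u j * v j) with hB
      set u' : ι → K[X] := fun j => (Q - f) * u j - 2 * (B - f * w) * v j with hu'
      set w' := (Q - f) * w - 2 * (B - f * w) with hw'
      have hQr : ∑ j, C (a j) * r j ^ 2 = w' * w := by
        have : ∀ j, C (a j) * r j ^ 2 = C (a j) * u j ^ 2 - 2 * w * (C (a j) * (u j * v j)) +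
            w ^ 2 * (C (a j) * v j ^ 2) := fun j => by rw [hdiv j]; ring
        simp only [this, Finset.sum_add_distrib, Finset.sum_sub_distrib, ← Finset.mul_sum, h, ← hQ,
          ← hB, hw']
        ring
      by_cases hr0 : r = 0
      · refine ⟨v, mul_right_cancel₀ (pow_ne_zero 2 hw) (Eq.trans ?_ h)⟩
        rw [Finset.sum_mul]
        exact Finset.sum_congr rfl fun j _ => by
          rw [hdiv j, congrFun hr0 j]; simp only [Pi.zero_apply]; ring
      obtain ⟨hne, -⟩ := ha.natDegree_eq hr0
      have hrd : ∀ j, (r j).natDegree ≤ w.natDegree - 1 := fun j => by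
        have := Polynomial.natDegree_mod_lt (u j) hpos.ne'
        simp only [hr]
        omega
      have hw'0 : w' ≠ 0 := fun e => hne (by rw [hQr, e, zero_mul])
      have hdeg : w'.natDegree < w.natDegree := by
        have h1 := natDegree_diag_le (a := a) hrd
        rw [hQr, natDegree_mul hw'0 hw] at h1
        omega
      refine Anisotropic.cassels_pfister ha (D - 1) u' w' hw'0 (by omega) ?_
      have e : ∀ j, C (a j) * u' j ^ 2 = (Q - f) ^ 2 * (C (a j) * u j ^ 2) -
          4 * (Q - f) * (B - f * w) * (C (a j) * (u j * v j)) +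
          4 * (B - f * w) ^ 2 * (C (a j) * v j ^ 2) := fun j => by rw [hu']; ring
      simp only [e, Finset.sum_add_distrib, Finset.sum_sub_distrib, ← Finset.mul_sum, h, ← hQ,
        ← hB, hw']
      ring
  termination_by D => D
  decreasing_by omega

/-- **The theorem of Cassels and Pfister.** -/
theorem cassels_pfister (h2 : (2 : K) ≠ 0) {a : ι → K} (ha0 : ∀ j, a j ≠ 0) {f : K[X]}
    {x : ι → RatFunc K}
    (h : ∑ j, RatFunc.C (a j) * x j ^ 2 = algebraMap K[X] (RatFunc K) f) :
    ∃ v : ι → K[X], ∑ j, C (a j) * v j ^ 2 = f := by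
  classical
  by_cases ha : Anisotropic a
  · obtain ⟨b, hb⟩ := IsLocalization.exist_integer_multiples_of_finite (nonZeroDivisors K[X]) x
    choose u hu using hb
    simp only [Algebra.smul_def] at hu
    refine ha.cassels_pfister _ u b (nonZeroDivisors.coe_ne_zero b) le_rfl
      (IsFractionRing.injective K[X] (RatFunc K) ?_)
    simp only [map_sum, map_mul, map_pow, hu, RatFunc.algebraMap_C, ← h, Finset.sum_mul]
    exact Finset.sum_congr rfl fun j _ => by ring
  · -- an isotropic form takes every value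
    simp only [Anisotropic, not_forall] at ha
    obtain ⟨z, hz, hz0⟩ := ha
    obtain ⟨j₁, hj₁⟩ := Function.ne_iff.1 hz0
    set s : K[X] := (f - C (a j₁)) * C (2 * a j₁ * z j₁)⁻¹
    refine ⟨fun j => s * C (z j) + if j = j₁ then 1 else 0, ?_⟩
    have e : ∀ j, C (a j) * (s * C (z j) + if j = j₁ then 1 else 0) ^ 2 =
        s ^ 2 * C (a j * z j ^ 2) +
          (if j = j₁ then s * C (2 * a j * z j) + C (a j) else 0) := fun j => by
      split_ifs <;> simp only [map_mul, map_pow, map_ofNat] <;> ring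
    rw [Finset.sum_congr rfl fun j _ => e j, Finset.sum_add_distrib, ← Finset.mul_sum, ← map_sum,
      hz, map_zero, mul_zero, zero_add, Finset.sum_ite_eq', if_pos (Finset.mem_univ j₁)]
    simp only [s]
    rw [mul_assoc, ← map_mul, inv_mul_cancel₀ (mul_ne_zero (mul_ne_zero h2 (ha0 j₁)) hj₁), map_one,
      mul_one, sub_add_cancel]

/-- Over a field in which `-1` is no sum of squares only the trivial sum of squares is `0`. -/
theorem anisotropic_one (hR : ∀ m, ¬ IsSqSum m (-1 : K)) : Anisotropic (fun _ : ι => (1 : K)) := by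
  classical
  intro x hx
  simp only [one_mul] at hx
  by_contra h0
  obtain ⟨j₀, hj₀⟩ := Function.ne_iff.1 h0
  refine hR (Fintype.card ι) ?_
  have : ∑ j, (if j = j₀ then 0 else x j / x j₀) ^ 2 = (-1 : K) := by
    rw [← Finset.sum_erase_add _ _ (Finset.mem_univ j₀)] at hx ⊢
    rw [if_pos rfl, zero_pow two_ne_zero, add_zero,
      Finset.sum_congr rfl fun j hj => by rw [if_neg (Finset.ne_of_mem_erase hj), div_pow],
      ← Finset.sum_div, eq_neg_of_add_eq_zero_left hx,
      neg_div, div_self (pow_ne_zero 2 hj₀)]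
  exact this ▸ isSqSum_of_card _ le_rfl

/-- **Cassels**: if `t² + d` is a sum of `m + 1` squares in `K(t)`, then `d` is one of `m`. -/
theorem isSqSum_of_sq_add [CharZero K] (hR : ∀ m, ¬ IsSqSum m (-1 : K)) {d : K} {m : ℕ}
    (h : IsSqSum (m + 1) (RatFunc.X ^ 2 + RatFunc.C d : RatFunc K)) : IsSqSum m d := by
  obtain ⟨x, hx⟩ := h
  obtain ⟨v, hv⟩ := cassels_pfister two_ne_zero (a := fun _ : Fin (m + 1) => (1 : K))
    (fun _ => one_ne_zero) (f := X ^ 2 + C d) (x := x)
    (by simpa [RatFunc.algebraMap_C, RatFunc.algebraMap_X] using hx)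
  have hv0 : v ≠ 0 := by
    rintro rfl
    have := congrArg natDegree hv
    rw [natDegree_X_pow_add_C] at this
    simp at this
  obtain ⟨-, hdeg⟩ := (anisotropic_one hR).natDegree_eq hv0
  have h1 : ∀ j, (v j).natDegree ≤ 1 := fun j => by
    have := hdeg j
    rw [hv, natDegree_X_pow_add_C] at this
    omega
  -- choose `t` at which one of the linear polynomials is `± t`
  obtain ⟨t, j₁, ht⟩ : ∃ t j, (v j).eval t ^ 2 = t ^ 2 := by
    have htop := coeff_two_mul_sum (a := fun _ : Fin (m + 1) => (1 : K)) h1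
    rw [hv] at htop
    obtain ⟨j, -, hj⟩ := Finset.exists_ne_zero_of_sum_ne_zero (htop ▸ (by
      rw [coeff_add, coeff_X_pow, coeff_C]; simp) : ∑ j, (1 : K) * (v j).coeff 1 ^ 2 ≠ 0)
    have e := eq_X_add_C_of_natDegree_le_one (h1 j)
    generalize (v j).coeff 1 = A at e
    generalize (v j).coeff 0 = B at e
    rcases eq_or_ne A 1 with h' | h'
    · refine ⟨-B / 2, j, ?_⟩
      simp only [e, eval_add, eval_mul, eval_C, eval_X, h']
      ring
    · refine ⟨B / (1 - A), j, ?_⟩
      simp only [e, eval_add, eval_mul, eval_C, eval_X]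
      have := sub_ne_zero.2 h'.symm
      field_simp
      ring
  refine ⟨fun j => (v (j₁.succAbove j)).eval t, ?_⟩
  have := congrArg (eval t) hv
  simp only [eval_finsetSum, eval_mul, eval_C, eval_pow, eval_add, eval_X, one_mul,
    Fin.sum_univ_succAbove _ j₁, ht] at this
  exact add_left_cancel this

/-- `K(t)` is formally real with `K`. -/
theorem not_isSqSum_ratFunc [CharZero K] (hR : ∀ m, ¬ IsSqSum m (-1 : K)) (m : ℕ) :
    ¬ IsSqSum m (-1 : RatFunc K) := by
  rintro ⟨x, hx⟩
  obtain ⟨v, hv⟩ := cassels_pfister two_ne_zero (a := fun _ : Fin m => (1 : K))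
    (fun _ => one_ne_zero) (f := -1) (x := x) (by simpa using hx)
  exact hR m ⟨fun j => (v j).eval 0, by simpa [eval_finsetSum] using congrArg (eval 0) hv⟩

end FA.Pfister

end
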