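import Fermat.Agent.Pfister.Round
import Mathlib.LinearAlgebra.Dimension.Constructions
import Mathlib.LinearAlgebra.Dimension.Finite
import Mathlib.LinearAlgebra.FiniteDimensional.Basic

/-!
# Isotropic Pfister forms are hyperbolic

An isotropic `⟨⟨a_1, …, a_n⟩⟩` has a totally isotropic subspace of half the dimension.
-/

set_option autoImplicit false

noncomputable section

open Module

namespace FA.Pfister

variable {F : Type*} [Field F]

/-- For a round `B` the double `B ⊗ ⟨1, a⟩` inherits a half-dimensional isotropic subspace. -/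
theorem IsRound.double_isotropic {V : Type*} [AddCommGroup V] [Module F V] [FiniteDimensional F V]
    {B : V →ₗ[F] V →ₗ[F] F} (hB : IsRound B) {a : F}
    (hsub : ∀ x : V, x ≠ 0 → B x x = 0 →
      ∃ S : Submodule F V, 2 * finrank F S = finrank F V ∧ ∀ y ∈ S, B y y = 0)
    {x : V × V} (hx : x ≠ 0) (h : FA.Pfister.double B a x x = 0) :
    ∃ S : Submodule F (V × V), 2 * finrank F S = finrank F (V × V) ∧
      ∀ y ∈ S, FA.Pfister.double B a y y = 0 := by
  by_cases hiso : ∃ v : V, v ≠ 0 ∧ B v v = 0
  · obtain ⟨v, hv, hv'⟩ := hiso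
    obtain ⟨S, hS, hS'⟩ := hsub v hv hv'
    refine ⟨S.prod S, ?_, fun y hy => ?_⟩
    · have e : S.prod S = LinearMap.range (S.subtype.prodMap S.subtype) := by
        rw [LinearMap.range_prodMap, Submodule.range_subtype]
      rw [e, LinearMap.finrank_range_of_inj (S.subtype_injective.prodMap S.subtype_injective),
        Module.finrank_prod, Module.finrank_prod]
      omega
    · rw [double_apply, hS' _ hy.1, hS' _ hy.2, mul_zero, add_zero]
  push Not at hiso
  rw [double_apply] at h
  have hv : x.2 ≠ 0 := fun e => by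
    rw [e, map_zero, mul_zero, add_zero] at h
    exact hx (Prod.ext (by_contra fun h1 => hiso _ h1 h) e)
  have hv2 : B x.2 x.2 ≠ 0 := hiso _ hv
  -- `-a` is the value at `z`, so the factor of a similarity `f`
  obtain ⟨z₀, hz₀⟩ := hB.mul_value x.1 x.2
  have hz : B ((B x.2 x.2)⁻¹ • z₀) ((B x.2 x.2)⁻¹ • z₀) = -a := by
    simp only [map_smul, LinearMap.smul_apply, smul_eq_mul, hz₀]
    field_simp
    linear_combination h
  obtain ⟨f, g, hadj, -, hgf⟩ := hB.2 ((B x.2 x.2)⁻¹ • z₀)
  rw [hz] at hgf
  refine ⟨LinearMap.range (f.prod LinearMap.id), ?_, ?_⟩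
  · rw [LinearMap.finrank_range_of_inj, Module.finrank_prod, two_mul]
    exact fun u w e => congrArg Prod.snd e
  · rintro y ⟨u, rfl⟩
    rw [double_apply]
    simp only [LinearMap.prod_apply, Function.prod, LinearMap.id_coe, id_eq]
    rw [hadj, hgf, map_smul, smul_eq_mul]
    ring

/-- **An isotropic Pfister form is hyperbolic.** -/
theorem pfister_hyperbolic : ∀ {n : ℕ} {a : Fin n → F}
    {x : (Fin n → Bool) → F}, x ≠ 0 → diagForm (pfisterCoeff a) x x = 0 →
      ∃ S : Submodule F ((Fin n → Bool) → F), 2 * finrank F S = 2 ^ n ∧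
        ∀ y ∈ S, diagForm (pfisterCoeff a) y y = 0
  | 0, a, x, hx, h => by
    refine absurd (funext fun s => ?_) hx
    rw [Subsingleton.elim s Fin.elim0]
    rw [diagForm_apply, Finset.sum_eq_single Fin.elim0 (fun j _ hj =>
      (hj (Subsingleton.elim _ _)).elim) (fun h => (h (Finset.mem_univ _)).elim)] at h
    simpa [pfisterCoeff] using h
  | n + 1, a, x, hx, h => by
    let e : ((Fin (n + 1) → Bool) → F) ≃ₗ[F] ((Fin n → Bool) → F) × ((Fin n → Bool) → F) :=
      { toFun := fun x => (fun s => x (Fin.cons false s), fun s => x (Fin.cons true s))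
        map_add' := fun x y => rfl
        map_smul' := fun c x => rfl
        invFun := fun p s => if s 0 then p.2 (Fin.tail s) else p.1 (Fin.tail s)
        left_inv := fun x => funext fun s => by
          rcases Bool.eq_false_or_eq_true (s 0) with h | h <;>
            simp only [h, if_true, if_false, Bool.false_eq_true] <;>
            rw [← h, Fin.cons_self_tail]
        right_inv := fun p => by ext s <;> simp }
    have key : ∀ y, diagForm (pfisterCoeff a) y y =
        FA.Pfister.double (diagForm (pfisterCoeff (Fin.tail a))) (a 0) (e y) (e y) := by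
      intro y
      rw [double_apply, diagForm_apply, diagForm_apply, diagForm_apply,
        ← (Fin.consEquiv fun _ => Bool).sum_comp, Fintype.sum_prod_type, Fintype.sum_bool,
        Finset.mul_sum, add_comm]
      congr 1 <;> refine Finset.sum_congr rfl fun s _ => ?_
      · simp [e, pfisterCoeff, Fin.prod_univ_succ, Fin.tail, Fin.consEquiv]
      · simp [e, pfisterCoeff, Fin.prod_univ_succ, Fin.tail, Fin.consEquiv, mul_assoc]
    rw [key] at h
    have hcard : finrank F ((Fin n → Bool) → F) = 2 ^ n := by
      simp [Module.finrank_fintype_fun_eq_card]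
    obtain ⟨S, hS, hS'⟩ := (isRound_pfister (Fin.tail a)).double_isotropic
      (fun z hz hz' => by
        obtain ⟨S, hS, hS'⟩ := pfister_hyperbolic (a := Fin.tail a) hz hz'
        exact ⟨S, hS.trans hcard.symm, hS'⟩)
      (fun e0 => hx (e.injective (e0.trans (map_zero e).symm))) h
    refine ⟨S.map e.symm.toLinearMap, ?_, ?_⟩
    · rw [LinearEquiv.finrank_map_eq, hS, Module.finrank_prod, hcard, pow_succ]
      ring
    · rintro y ⟨z, hz, rfl⟩
      rw [key]
      simpa using hS' z hz

end FA.Pfister

end
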