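import Fermat.Agent.Pfister.CasselsPfister
import Mathlib.Algebra.QuadraticAlgebra.Basic
import Mathlib.Algebra.Ring.SumsOfSquares
import Mathlib.Analysis.Complex.Basic

/-!
# Fields of every level

Iterating `t² + d` gives formally real fields with sums of `n + 1` squares that are not sums of
`n`; adjoining `√-d` gives fields of every level `2 ^ n`.
-/

set_option autoImplicit false

noncomputable section

namespace FA.Pfister

theorem IsSqSum.add {F : Type*} [Field F] {m k : ℕ} {a b : F} (ha : IsSqSum m a)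
    (hb : IsSqSum k b) : IsSqSum (m + k) (a + b) := by
  obtain ⟨x, rfl⟩ := ha
  obtain ⟨y, rfl⟩ := hb
  exact ⟨Fin.append x y, by simp [Fin.sum_univ_add]⟩

theorem IsSqSum.map {F L : Type*} [Field F] [Field L] (φ : F →+* L) {m : ℕ} {a : F}
    (ha : IsSqSum m a) : IsSqSum m (φ a) := by
  obtain ⟨x, rfl⟩ := ha
  exact ⟨fun j => φ (x j), by simp⟩

/-- **Formally real fields with unbounded Pythagoras numbers.** -/
theorem exists_not_isSqSum (n : ℕ) :
    ∃ (K : Type) (_ : Field K) (_ : CharZero K) (d : K),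
      (∀ m, ¬ IsSqSum m (-1 : K)) ∧ IsSqSum (n + 1) d ∧ ¬ IsSqSum n d := by
  induction n with
  | zero =>
    refine ⟨ℚ, inferInstance, inferInstance, 1, fun m ⟨x, hx⟩ => ?_, ⟨fun _ => 1, by simp⟩,
      fun ⟨x, hx⟩ => by simp at hx⟩
    linarith [Finset.sum_nonneg fun j (_ : j ∈ Finset.univ) => sq_nonneg (x j)]
  | succ n ih =>
    obtain ⟨K, _, _, d, hR, hd, hd'⟩ := ih
    refine ⟨RatFunc K, inferInstance,
      charZero_of_injective_ringHom (RatFunc.C : K →+* RatFunc K).injective,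
      RatFunc.X ^ 2 + RatFunc.C d, not_isSqSum_ratFunc hR, ?_,
      fun h => hd' (isSqSum_of_sq_add hR h)⟩
    rw [add_comm (n + 1) 1]
    exact IsSqSum.add ⟨fun _ => RatFunc.X, by simp⟩ (hd.map RatFunc.C)

/-- **Every power of two is a level.** -/
theorem exists_level (n : ℕ) :
    ∃ (L : Type) (_ : Field L), ∀ s, IsSqSum s (-1 : L) ↔ 2 ^ n ≤ s := by
  rcases Nat.eq_zero_or_pos n with rfl | hn
  · refine ⟨ℂ, inferInstance, fun s => ⟨?_, fun h => ?_⟩⟩
    · rintro ⟨x, hx⟩
      rcases s with _ | s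
      · simp at hx
      · simp
    · exact IsSqSum.mono ⟨fun _ => Complex.I, by simp⟩ h
  obtain ⟨K, _, _, d, hR, hd, hd'⟩ := exists_not_isSqSum (2 ^ n)
  have hd0 : d ≠ 0 := fun e => hd' (by subst e; exact ⟨0, by simp⟩)
  have hfact : Fact (∀ r : K, r ^ 2 ≠ -d + 0 * r) := ⟨fun r hr => by
    rw [zero_mul, add_zero] at hr
    have hr0 : r ≠ 0 := fun e => hd0 (by rw [e] at hr; simpa using hr.symm)
    refine hR (2 ^ n + 1) ?_
    obtain ⟨x, hx⟩ := hd.mul_sq r⁻¹
    have h2 : d * r⁻¹ ^ 2 = -1 := by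
      field_simp
      linear_combination hr
    exact ⟨x, hx.trans h2⟩⟩
  set θ : (QuadraticAlgebra K (-d) 0) := ⟨0, 1⟩
  have hθ : θ ^ 2 = algebraMap K (QuadraticAlgebra K (-d) 0) (-d) := by
    rw [sq]
    ext <;> simp [θ]
  have hθ0 : θ ≠ 0 := fun e => one_ne_zero (congrArg QuadraticAlgebra.im e : (1 : K) = 0)
  have hup : IsSqSum (2 ^ n + 1) (-1 : (QuadraticAlgebra K (-d) 0)) := by
    have := (hd.map (algebraMap K (QuadraticAlgebra K (-d) 0))).mul_sq θ⁻¹
    rwa [show algebraMap K (QuadraticAlgebra K (-d) 0) d * θ⁻¹ ^ 2 = -1 by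
      rw [inv_pow, hθ, map_neg, inv_neg, mul_neg,
        mul_inv_cancel₀ ((map_ne_zero (algebraMap K (QuadraticAlgebra K (-d) 0))).2 hd0)]] at this
  obtain ⟨m, hm⟩ := level_eq_two_pow hup
  have hmn : m = n := by
    have h1 : 2 ^ m ≤ 2 ^ n + 1 := (hm _).1 hup
    have hle : m ≤ n := by
      by_contra hlt
      have := Nat.pow_le_pow_right (show 0 < 2 by norm_num) (show n + 1 ≤ m by omega)
      rw [pow_succ] at this
      have : 1 < 2 ^ n := Nat.one_lt_two_pow hn.ne'
      omega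
    refine le_antisymm hle ?_
    by_contra hlt
    push Not at hlt
    obtain ⟨z, hz⟩ := (hm _).2 le_rfl
    let re : (QuadraticAlgebra K (-d) 0) →+ K := AddMonoidHom.mk' QuadraticAlgebra.re fun _ _ => rfl
    have hre := congrArg re hz
    simp only [map_sum, re, AddMonoidHom.mk'_apply, sq, QuadraticAlgebra.re_mul,
      QuadraticAlgebra.re_neg, QuadraticAlgebra.re_one, mul_assoc, Finset.sum_add_distrib,
      ← Finset.mul_sum] at hre
    set A := ∑ j, (z j).re * (z j).re with hA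
    set B := ∑ j, (z j).im * (z j).im with hB
    have hAs : IsSqSum (2 ^ m) A := ⟨fun j => (z j).re, by simp [hA, sq]⟩
    have hBs : IsSqSum (2 ^ m) B := ⟨fun j => (z j).im, by simp [hB, sq]⟩
    have hB0 : B ≠ 0 := fun e => by
      rw [e, mul_zero, add_zero] at hre
      exact hR _ (hre ▸ hAs)
    refine hd' ?_
    have h2m : 2 ^ m + 2 ^ m ≤ 2 ^ n := by
      rw [← two_mul, ← pow_succ']
      exact Nat.pow_le_pow_right (by norm_num) hlt
    have hfin := ((hBs.add (hAs.mul hBs)).mono h2m).mul_sq B⁻¹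
    rwa [show (B + A * B) * B⁻¹ ^ 2 = d by field_simp; linear_combination hre] at hfin
  exact ⟨(QuadraticAlgebra K (-d) 0), inferInstance, hmn ▸ hm⟩

end FA.Pfister

end
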