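import Mathlib.Algebra.Algebra.Bilinear
import Mathlib.Algebra.BigOperators.Fin
import Mathlib.Algebra.BigOperators.Field
import Mathlib.LinearAlgebra.BilinearMap
import Mathlib.LinearAlgebra.Pi
import Mathlib.Data.Fintype.BigOperators
import Mathlib.Data.Fintype.Pi
import Mathlib.Data.Nat.Log
import Mathlib.Tactic.Ring
import Mathlib.Tactic.FieldSimp
import Mathlib.Tactic.LinearCombination
import Mathlib.Tactic.Module

/-!
# Pfister forms are multiplicative

Every value of `⟨⟨a_1, …, a_n⟩⟩` is the factor of a similarity of the form. So the values, and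
for `a_j = 1` the sums of `2 ^ n` squares, are closed under products and inverses.
-/

set_option autoImplicit false

namespace FA.Pfister

variable {F : Type*} [Field F] {V W : Type*} [AddCommGroup V] [Module F V] [AddCommGroup W]
  [Module F W]

/-- A symmetric bilinear form each of whose values `B x x` is the factor of a similarity. -/
def IsRound (B : V →ₗ[F] V →ₗ[F] F) : Prop :=
  (∀ x y, B x y = B y x) ∧ ∀ x, ∃ f g : V →ₗ[F] V, (∀ u v, B (f u) v = B u (g v)) ∧
    (∀ u, f (g u) = B x x • u) ∧ ∀ u, g (f u) = B x x • u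

/-- The form `B ⊗ ⟨1, a⟩` on `V × V`. -/
def double (B : V →ₗ[F] V →ₗ[F] F) (a : F) : (V × V) →ₗ[F] (V × V) →ₗ[F] F :=
  B.compl₁₂ (LinearMap.fst F V V) (LinearMap.fst F V V) +
    a • B.compl₁₂ (LinearMap.snd F V V) (LinearMap.snd F V V)

theorem double_apply (B : V →ₗ[F] V →ₗ[F] F) (a : F) (x y : V × V) :
    double B a x y = B x.1 y.1 + a * B x.2 y.2 := by
  simp [double]

theorem IsRound.double {B : V →ₗ[F] V →ₗ[F] F} (hB : IsRound B) (a : F) :
    IsRound (double B a) := by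
  refine ⟨fun x y => by rw [double_apply, double_apply, hB.1 x.1, hB.1 x.2], fun x => ?_⟩
  rw [double_apply]
  obtain ⟨f₁, g₁, ha₁, hfg₁, hgf₁⟩ := hB.2 x.1
  obtain ⟨f₂, g₂, ha₂, hfg₂, hgf₂⟩ := hB.2 x.2
  have ha₁' : ∀ u v, B (g₁ u) v = B u (f₁ v) := fun u v => by rw [hB.1, ← ha₁, hB.1]
  have ha₂' : ∀ u v, B (g₂ u) v = B u (f₂ v) := fun u v => by rw [hB.1, ← ha₂, hB.1]
  set c₁ := B x.1 x.1
  set c₂ := B x.2 x.2
  let p₁ := LinearMap.fst F V V
  let p₂ := LinearMap.snd F V V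
  by_cases h : c₁ = 0
  · -- the similarity of factor `a` after that of factor `c₂`
    refine ⟨(a • f₂ ∘ₗ p₂).prod (f₂ ∘ₗ p₁), (a • g₂ ∘ₗ p₂).prod (g₂ ∘ₗ p₁), fun u v => ?_,
      fun u => ?_, fun u => ?_⟩
    · simp only [double_apply, p₁, p₂, LinearMap.prod_apply, Function.prod,
        LinearMap.smul_apply, LinearMap.comp_apply, LinearMap.fst_apply, LinearMap.snd_apply,
        map_smul, ha₂, smul_eq_mul]
      ring
    · refine Prod.ext ?_ ?_ <;>
        simp [p₁, p₂, hfg₂, h, smul_smul]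
    · refine Prod.ext ?_ ?_ <;>
        simp [p₁, p₂, hgf₂, h, smul_smul]
  · refine ⟨(f₁ ∘ₗ p₁ + a • f₂ ∘ₗ p₂).prod (c₁⁻¹ • g₁ ∘ₗ g₂ ∘ₗ f₁ ∘ₗ p₁ - g₁ ∘ₗ p₂),
      (g₁ ∘ₗ p₁ + a • c₁⁻¹ • g₁ ∘ₗ f₂ ∘ₗ f₁ ∘ₗ p₂).prod (g₂ ∘ₗ p₁ - f₁ ∘ₗ p₂),
      fun u v => ?_, fun u => ?_, fun u => ?_⟩
    · simp only [double_apply, p₁, p₂, LinearMap.prod_apply, Function.prod,
        LinearMap.sub_apply, LinearMap.add_apply, LinearMap.smul_apply, LinearMap.comp_apply,
        LinearMap.fst_apply, LinearMap.snd_apply, map_add, map_sub, map_smul, ha₁, ha₂, ha₁',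
        ha₂', smul_eq_mul]
      ring
    · refine Prod.ext ?_ ?_ <;>
        simp only [p₁, p₂, LinearMap.prod_apply, Function.prod, LinearMap.sub_apply,
          LinearMap.add_apply, LinearMap.smul_apply, LinearMap.comp_apply, LinearMap.fst_apply,
          LinearMap.snd_apply, map_add, map_sub, map_smul, hfg₁, hfg₂, hgf₁, hgf₂, Prod.smul_fst,
          Prod.smul_snd] <;>
        match_scalars <;> field_simp <;> ring
    · refine Prod.ext ?_ ?_ <;>
        simp only [p₁, p₂, LinearMap.prod_apply, Function.prod, LinearMap.sub_apply,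
          LinearMap.add_apply, LinearMap.smul_apply, LinearMap.comp_apply, LinearMap.fst_apply,
          LinearMap.snd_apply, map_add, map_sub, map_smul, hfg₁, hfg₂, hgf₁, hgf₂, Prod.smul_fst,
          Prod.smul_snd] <;>
        match_scalars <;> field_simp <;> ring

theorem IsRound.transport {B : V →ₗ[F] V →ₗ[F] F} (hB : IsRound B) (e : W ≃ₗ[F] V)
    {B' : W →ₗ[F] W →ₗ[F] F} (h : ∀ x y, B' x y = B (e x) (e y)) : IsRound B' := by
  refine ⟨fun x y => by rw [h, h, hB.1], fun x => ?_⟩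
  obtain ⟨f, g, ha, hfg, hgf⟩ := hB.2 (e x)
  refine ⟨e.symm.toLinearMap ∘ₗ f ∘ₗ e.toLinearMap, e.symm.toLinearMap ∘ₗ g ∘ₗ e.toLinearMap,
    fun u v => ?_, fun u => ?_, fun u => ?_⟩
  · simp [h, ha]
  · simp [h, hfg]
  · simp [h, hgf]

variable {ι : Type*} [Fintype ι]

/-- The form `∑ d_i x_i y_i`. -/
def diagForm (d : ι → F) : (ι → F) →ₗ[F] (ι → F) →ₗ[F] F :=
  ∑ i, d i • (LinearMap.mul F F).compl₁₂ (LinearMap.proj i) (LinearMap.proj i)

theorem diagForm_apply (d : ι → F) (x y : ι → F) : diagForm d x y = ∑ i, d i * (x i * y i) := by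
  simp [diagForm, LinearMap.sum_apply]

/-- The coefficients of `⟨⟨a_1, …, a_n⟩⟩`. -/
def pfisterCoeff {n : ℕ} (a : Fin n → F) (s : Fin n → Bool) : F :=
  ∏ j, if s j then a j else 1

theorem isRound_pfister : ∀ {n : ℕ} (a : Fin n → F), IsRound (diagForm (pfisterCoeff a))
  | 0, a => by
    have key : ∀ u v : (Fin 0 → Bool) → F, diagForm (pfisterCoeff a) u v =
        u Fin.elim0 * v Fin.elim0 := fun u v => by
      rw [diagForm_apply, Finset.sum_eq_single Fin.elim0 (fun j _ hj =>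
        (hj (Subsingleton.elim _ _)).elim) (fun h => (h (Finset.mem_univ _)).elim)]
      simp [pfisterCoeff]
    refine ⟨fun x y => by rw [key, key, mul_comm], fun x => ?_⟩
    refine ⟨x Fin.elim0 • LinearMap.id, x Fin.elim0 • LinearMap.id, fun u v => ?_, fun u => ?_,
      fun u => ?_⟩
    · simp only [key, LinearMap.smul_apply, LinearMap.id_apply, Pi.smul_apply, smul_eq_mul]
      ring
    all_goals simp [key, smul_smul]
  | n + 1, a => by
    let e : ((Fin (n + 1) → Bool) → F) ≃ₗ[F] ((Fin n → Bool) → F) × ((Fin n → Bool) → F) :=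
      { toFun := fun x => (fun s => x (Fin.cons false s), fun s => x (Fin.cons true s))
        map_add' := fun x y => rfl
        map_smul' := fun c x => rfl
        invFun := fun p s => if s 0 then p.2 (Fin.tail s) else p.1 (Fin.tail s)
        left_inv := fun x => funext fun s => by
          rcases Bool.eq_false_or_eq_true (s 0) with h | h <;>
            simp only [h, if_true, if_false, Bool.false_eq_true] <;>
            rw [← h, Fin.cons_self_tail]
        right_inv := fun p => by ext s <;> simp }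
    refine ((isRound_pfister (Fin.tail a)).double (a 0)).transport e fun x y => ?_
    rw [double_apply, diagForm_apply, diagForm_apply, diagForm_apply,
      ← (Fin.consEquiv fun _ => Bool).sum_comp, Fintype.sum_prod_type, Fintype.sum_bool,
      Finset.mul_sum, add_comm]
    congr 1 <;> refine Finset.sum_congr rfl fun s _ => ?_
    · simp [e, pfisterCoeff, Fin.prod_univ_succ, Fin.tail, Fin.consEquiv]
    · simp [e, pfisterCoeff, Fin.prod_univ_succ, Fin.tail, Fin.consEquiv, mul_assoc]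

theorem IsRound.mul_value {B : V →ₗ[F] V →ₗ[F] F} (hB : IsRound B) (x y : V) :
    ∃ z, B z z = B x x * B y y := by
  obtain ⟨f, g, ha, -, hgf⟩ := hB.2 x
  exact ⟨f y, by rw [ha, hgf, map_smul, smul_eq_mul]⟩

/-- `a` is a sum of `m` squares. -/
def IsSqSum (m : ℕ) (a : F) : Prop := ∃ x : Fin m → F, ∑ j, x j ^ 2 = a

theorem isSqSum_of_card {m : ℕ} (x : ι → F) (h : Fintype.card ι ≤ m) :
    IsSqSum m (∑ j, x j ^ 2) := by
  classical
  obtain ⟨φ⟩ : Nonempty (ι ↪ Fin m) := Function.Embedding.nonempty_of_card_le (by simpa using h)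
  refine ⟨Function.extend φ x 0, ?_⟩
  rw [← Finset.sum_subset (Finset.subset_univ (Finset.univ.map φ)) fun j _ hj => ?_,
    Finset.sum_map]
  · exact Finset.sum_congr rfl fun i _ => by rw [φ.injective.extend_apply]
  · rw [Function.extend_apply' _ _ _ fun ⟨i, hi⟩ => hj (by simp [← hi]), Pi.zero_apply,
      zero_pow two_ne_zero]

theorem IsSqSum.mono {m k : ℕ} {a : F} (h : IsSqSum m a) (hmk : m ≤ k) : IsSqSum k a := by
  obtain ⟨x, rfl⟩ := h
  exact isSqSum_of_card x (by simpa using hmk)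

theorem IsSqSum.mul_sq {m : ℕ} {a : F} (h : IsSqSum m a) (b : F) : IsSqSum m (a * b ^ 2) := by
  obtain ⟨x, rfl⟩ := h
  exact ⟨fun j => x j * b, by simp [mul_pow, Finset.sum_mul]⟩

theorem isSqSum_two_pow_iff {n : ℕ} {a : F} :
    IsSqSum (2 ^ n) a ↔ ∃ x : (Fin n → Bool) → F, diagForm (pfisterCoeff 1) x x = a := by
  have key : ∀ x : (Fin n → Bool) → F, diagForm (pfisterCoeff 1) x x = ∑ s, x s ^ 2 := fun x => by
    simp [diagForm_apply, pfisterCoeff, sq]
  simp only [key]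
  constructor
  · rintro ⟨x, rfl⟩
    let e := Fintype.equivFinOfCardEq (show Fintype.card (Fin n → Bool) = 2 ^ n by simp)
    exact ⟨x ∘ e, e.sum_comp (fun j => x j ^ 2)⟩
  · rintro ⟨x, rfl⟩
    exact isSqSum_of_card x (by simp)

theorem IsSqSum.mul {n : ℕ} {a b : F} (ha : IsSqSum (2 ^ n) a) (hb : IsSqSum (2 ^ n) b) :
    IsSqSum (2 ^ n) (a * b) := by
  rw [isSqSum_two_pow_iff] at *
  obtain ⟨x, rfl⟩ := ha
  obtain ⟨y, rfl⟩ := hb
  exact (isRound_pfister 1).mul_value x y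

/-- **The level**: if `-1` is a sum of squares, the least number of them is a power of two. -/
theorem level_eq_two_pow {m : ℕ} (h : IsSqSum m (-1 : F)) :
    ∃ n, ∀ s, IsSqSum s (-1 : F) ↔ 2 ^ n ≤ s := by
  classical
  have hex : ∃ k, IsSqSum k (-1 : F) := ⟨m, h⟩
  obtain ⟨s, hs, hmin⟩ : ∃ s, IsSqSum s (-1 : F) ∧ ∀ k, k < s → ¬ IsSqSum k (-1 : F) :=
    ⟨Nat.find hex, Nat.find_spec hex, fun k hk => Nat.find_min hex hk⟩
  have hs0 : s ≠ 0 := by
    rintro rfl
    obtain ⟨x, hx⟩ := hs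
    simp at hx
  set n := Nat.log 2 s
  have h1 : 2 ^ n ≤ s := Nat.pow_log_le_self 2 hs0
  have h2 : s < 2 ^ (n + 1) := Nat.lt_pow_succ_log_self (by norm_num) s
  have hp : 0 < 2 ^ n := Nat.two_pow_pos n
  rw [pow_succ] at h2
  obtain ⟨a, ha⟩ : ∃ a, 2 ^ n = a + 1 := ⟨2 ^ n - 1, by omega⟩
  obtain ⟨b, rfl⟩ : ∃ b, s = a + b := ⟨s - a, by omega⟩
  obtain ⟨x, hx⟩ := hs
  rw [Fin.sum_univ_add] at hx
  set A := ∑ j, x (Fin.castAdd b j) ^ 2
  set B := ∑ j, x (Fin.natAdd a j) ^ 2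
  have hA : 1 + A ≠ 0 := fun e =>
    hmin a (by omega) ⟨fun j => x (Fin.castAdd b j), eq_neg_of_add_eq_zero_right e⟩
  have hA' : IsSqSum (2 ^ n) (1 + A) :=
    ha ▸ ⟨Fin.cons 1 fun j => x (Fin.castAdd b j), by simp [Fin.sum_univ_succ, A]⟩
  have hB' : IsSqSum (2 ^ n) B := isSqSum_of_card (fun j => x (Fin.natAdd a j)) (by simp; omega)
  have key : IsSqSum (2 ^ n) (-1 : F) := by
    have e := ((hB'.mul hA').mul_sq (1 + A)⁻¹)
    rwa [show B * (1 + A) * ((1 + A)⁻¹) ^ 2 = -1 by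
      field_simp
      linear_combination hx] at e
  refine ⟨n, fun k => ⟨fun hk => ?_, fun hk => key.mono hk⟩⟩
  by_contra hlt
  exact hmin k (by omega) hk

end FA.Pfister
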