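import Fermat.Agent.Tsen.Tower
import Fermat.Agent.Tsen.Forms
import Fermat.Agent.Pfister.Round

/-!
# Sums of squares in `C_i` fields
-/

set_option autoImplicit false

open MvPolynomial

namespace FA.Pfister

variable {F : Type*} [Field F] {i : ℕ}

/-- Over a `C_i` field a nondegenerate diagonal form in at least `2 ^ i` variables takes every
value. -/
theorem diagonal_value (hF : FA.Tsen.IsC i F) (h2 : (2 : F) ≠ 0) {σ : Type*} [Fintype σ]
    {a : σ → F} (ha : ∀ j, a j ≠ 0) (hcard : 2 ^ i ≤ Fintype.card σ) (c : F) :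
    ∃ y : σ → F, ∑ j, a j * y j ^ 2 = c := by
  obtain ⟨x, hx, hx'⟩ := hF.form two_ne_zero
    (∑ o : Option σ, MvPolynomial.C (o.elim (-c) a) * MvPolynomial.X o ^ 2)
    (IsHomogeneous.sum _ _ _ fun o _ => isHomogeneous_C_mul_X_pow _ o 2)
    (by rw [Fintype.card_option]; omega)
  rw [map_sum, Fintype.sum_option] at hx'
  simp only [map_mul, map_pow, eval_C, eval_X, Option.elim_none, Option.elim_some] at hx'
  rcases eq_or_ne (x none) 0 with h0 | h0
  · refine FA.Tsen.diagonal_universal h2 ha (x := fun j => x (some j)) (fun h => hx ?_) ?_ c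
    · funext o
      cases o with
      | none => exact h0
      | some j => exact congrFun h j
    · rw [h0] at hx'
      linear_combination hx'
  · refine ⟨fun j => x (some j) / x none, ?_⟩
    simp only [div_pow, mul_div, ← Finset.sum_div]
    rw [div_eq_iff (pow_ne_zero 2 h0)]
    linear_combination hx'

/-- **Every element of a `C_i` field with `2 ≠ 0` is a sum of `2 ^ i` squares.** -/
theorem isSqSum_of_isC (hF : FA.Tsen.IsC i F) (h2 : (2 : F) ≠ 0) (c : F) :
    IsSqSum (2 ^ i) c := by
  obtain ⟨y, hy⟩ := diagonal_value hF h2 (a := fun _ : Fin (2 ^ i) => (1 : F))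
    (fun _ => one_ne_zero) (by simp) c
  exact ⟨y, by simpa using hy⟩

end FA.Pfister
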